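/-
S33 programme, brick LVL-COMPOSITE (helper52; helper3's msg 13402).

Given the `T`-linear equivariant embedding of A3'(a) at level `N`
  `Ψ₀ : V →ₗ[T] (Fin r → T ⊗[ℤ_[p]] TateModule p (JZero N))`
and `h : N ∣ M`, the composite with the base change of helper61's level-raising map
`Lvl61.lvlMap p h : Ta_p J₀(N) → Ta_p J₀(M)` is again injective (`T` flat over `ℤ_p`) and
`G_ℚ`-equivariant:
  `Ψ₁ v i = (lvlMap p h).baseChange T (Ψ₀ v i)`.

* `exists_lvl_composite` : the statement for `TateModule p (JZero _)` / `TateModule13.rho`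
  (apply verbatim to `TJ` / `rhoT`, which unfold by `rfl`);
* `exists_lvl4_composite` : at the S33 level `Lvl61.lvl4 N`.
The abstract form is `Tensor52.exists_composite` (Mathlib only).
-/
import Mathlib
import Fermat.Agent.S33P.Lvl61.Main
import Fermat.Agent.S33P.Tensor52.Flat

set_option autoImplicit false

open AlgebraicCurve ModularCurve TensorProduct

noncomputable section

namespace Fermat.Agent.S33P.LvlComp52

open Fermat.Agent.ES.J.TateModule13 Fermat.Agent.S33P.Lvl61 Fermat.Agent.S33P.Tensor52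

/-- `ℚbar`. -/
local notation "Qb" => AlgebraicClosure ℚ

variable {p : ℕ} [hp : Fact p.Prime] {T : Type*} [CommRing T] [Algebra ℤ_[p] T]
  [Module.Flat ℤ_[p] T] {N M : ℕ} [NeZero N] [NeZero M]
  {V : Type*} [AddCommGroup V] [Module T V]

/-- **LVL-COMPOSITE.** -/
theorem exists_lvl_composite (h : N ∣ M) (actV : (Qb ≃ₐ[ℚ] Qb) → V → V) {r : ℕ}
    (Ψ₀ : V →ₗ[T] (Fin r → T ⊗[ℤ_[p]] TateModule p (JZero N)))
    (hΨ₀ : Function.Injective Ψ₀)
    (hΨσ : ∀ (g : Qb ≃ₐ[ℚ] Qb) (v : V) (i : Fin r),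
      Ψ₀ (actV g v) i = (rho p (JZero N) g).baseChange T (Ψ₀ v i)) :
    ∃ Ψ₁ : V →ₗ[T] (Fin r → T ⊗[ℤ_[p]] TateModule p (JZero M)),
      Function.Injective Ψ₁ ∧
      (∀ (g : Qb ≃ₐ[ℚ] Qb) (v : V) (i : Fin r),
        Ψ₁ (actV g v) i = (rho p (JZero M) g).baseChange T (Ψ₁ v i)) ∧
      ∀ (v : V) (i : Fin r), Ψ₁ v i = (lvlMap p h).baseChange T (Ψ₀ v i) :=
  exists_composite T actV (fun g => rho p (JZero N) g) (fun g => rho p (JZero M) g)
    (lvlMap p h) (lvlMap_injective h) (fun g x => lvlMap_rho h g x) Ψ₀ hΨ₀ hΨσ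

/-- **LVL-COMPOSITE at the S33 level** `N' = lvl4 N` (`= N` if `4 ∣ N`, else `4 N`). -/
theorem exists_lvl4_composite (actV : (Qb ≃ₐ[ℚ] Qb) → V → V) {r : ℕ}
    (Ψ₀ : V →ₗ[T] (Fin r → T ⊗[ℤ_[p]] TateModule p (JZero N)))
    (hΨ₀ : Function.Injective Ψ₀)
    (hΨσ : ∀ (g : Qb ≃ₐ[ℚ] Qb) (v : V) (i : Fin r),
      Ψ₀ (actV g v) i = (rho p (JZero N) g).baseChange T (Ψ₀ v i)) :
    ∃ Ψ₁ : V →ₗ[T] (Fin r → T ⊗[ℤ_[p]] TateModule p (JZero (lvl4 N))),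
      Function.Injective Ψ₁ ∧
      (∀ (g : Qb ≃ₐ[ℚ] Qb) (v : V) (i : Fin r),
        Ψ₁ (actV g v) i = (rho p (JZero (lvl4 N)) g).baseChange T (Ψ₁ v i)) ∧
      ∀ (v : V) (i : Fin r), Ψ₁ v i = (lvlMap p (dvd_lvl4 N)).baseChange T (Ψ₀ v i) :=
  exists_lvl_composite (dvd_lvl4 N) actV Ψ₀ hΨ₀ hΨσ

end Fermat.Agent.S33P.LvlComp52
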